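import Fermat.Agent.A3.H499.OrthDatum
import Fermat.Agent.A3.H739.GrAsm
import Fermat.Agent.S37.H579.RimOfBase

/-!
# A3 / GR-ORTH (helper499): the leaf `A3.H739.OrthLeaf`, UNCONDITIONALLY

`orthLeaf : OrthLeaf N V hVG` for every level `N`, every prime `ℓ ∤ N` and every valuation ring
`V ⊆ Q̄` above `ℓ` — the field `orthonormal` of the `GoodRed` instance of `X₀(N)`
(`O = modO`, `red = modρ`, `I = inertiaImage V N`).

Route D (`OrthDatum.lean`): only the degree equality `[F_N : Q̄(j)] = ψ(N) = [F_{N,k} : k(j̄)]`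
(`S37.H628.good_H1`, unconditional) and inertia-fixed lifts (`exists_fixed_lift`: the generators
`j(q^d)` have rational `q`-expansions, constants have Teichmüller lifts) are used.
No place map, no `div_red`, no normality (H3).
-/

set_option autoImplicit false
set_option synthInstance.maxHeartbeats 400000
set_option linter.unusedSectionVars false
set_option linter.style.longLine false

noncomputable section

namespace Fermat.Agent.A3.H499

open AlgebraicCurve ModularCurve HahnSeries IsLocalRing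
open Fermat.Agent.S19 (GalQ IsInertiaAt)
open Fermat.Agent.S37.Red (Qb FN kA FNk ModVG modO modρ modFrac modGj jk ofSeries
  modρ_ofSeries coe_ofSeries inv_mem_modO jqNModC_mem_bar)
open Fermat.Agent.A3.H739

variable {N : ℕ} {V : ValuationSubring Qb}

/-- the reductions which have an inertia-fixed lift, as a set of series -/
def fixImage (hVG : ModVG N V) : Set (LaurentSeries (kA V)) :=
  {g | ∃ u : modO hVG, (∀ γ ∈ inertiaImage V N, γ • ((u : modO hVG) : FN N) = u) ∧
    ((modρ hVG u : FNk V N) : LaurentSeries (kA V)) = g}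

theorem fixImage_mul (hVG : ModVG N V) {a b : LaurentSeries (kA V)}
    (ha : a ∈ fixImage hVG) (hb : b ∈ fixImage hVG) : a * b ∈ fixImage hVG := by
  obtain ⟨u, hu, rfl⟩ := ha
  obtain ⟨v, hv, rfl⟩ := hb
  refine ⟨u * v, fun γ hγ => ?_, ?_⟩
  · show γ • (((u : modO hVG) : FN N) * ((v : modO hVG) : FN N)) = _
    rw [smul_mul', hu γ hγ, hv γ hγ]
    rfl
  · rw [(modρ hVG).map_mul u v]
    rfl

theorem fixImage_add (hVG : ModVG N V) {a b : LaurentSeries (kA V)}
    (ha : a ∈ fixImage hVG) (hb : b ∈ fixImage hVG) : a + b ∈ fixImage hVG := by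
  obtain ⟨u, hu, rfl⟩ := ha
  obtain ⟨v, hv, rfl⟩ := hb
  refine ⟨u + v, fun γ hγ => ?_, ?_⟩
  · show γ • (((u : modO hVG) : FN N) + ((v : modO hVG) : FN N)) = _
    rw [smul_add, hu γ hγ, hv γ hγ]
    rfl
  · rw [(modρ hVG).map_add u v]
    rfl

theorem fixImage_one (hVG : ModVG N V) : (1 : LaurentSeries (kA V)) ∈ fixImage hVG :=
  ⟨1, fun γ _ => smul_one γ, by rw [(modρ hVG).map_one]; rfl⟩

theorem fixImage_zero (hVG : ModVG N V) : (0 : LaurentSeries (kA V)) ∈ fixImage hVG :=
  ⟨0, fun γ _ => smul_zero γ, by rw [(modρ hVG).map_zero]; rfl⟩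

theorem fixImage_algebraMap {ℓ : ℕ} [Fact ℓ.Prime] (hV : V.LiesOverPrime ℓ) (hVG : ModVG N V)
    (c : kA V) : algebraMap (kA V) (LaurentSeries (kA V)) c ∈ fixImage hVG := by
  obtain ⟨a, hac, hfix⟩ := gr_I_lift_const N hV c
  refine ⟨⟨algebraMap Qb (FN N) (a : Qb), (modFrac N V).ctx.A_mem a⟩, fun γ hγ => ?_, ?_⟩
  · show γ • (algebraMap Qb (FN N) (a : Qb)) = algebraMap Qb (FN N) (a : Qb)
    rw [SemilinearAut.smul_algebraMap, hfix γ hγ]
  · have h := (modFrac N V).ctx.ρ_A a
    have h' : modρ hVG ⟨algebraMap Qb (FN N) (a : Qb), (modFrac N V).ctx.A_mem a⟩ =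
        algebraMap (kA V) (FNk V N) (residue V a) := h
    rw [h', hac]
    rfl

theorem fixImage_inv (hVG : ModVG N V) {a : LaurentSeries (kA V)}
    (ha : a ∈ fixImage hVG) : a⁻¹ ∈ fixImage hVG := by
  obtain ⟨u, hufix, rfl⟩ := ha
  by_cases hu : modρ hVG u = 0
  · refine ⟨0, fun γ _ => smul_zero γ, ?_⟩
    rw [hu, (modρ hVG).map_zero]
    show (0 : LaurentSeries (kA V)) = (0 : LaurentSeries (kA V))⁻¹
    rw [inv_zero]
  · refine ⟨⟨((u : FN N))⁻¹, inv_mem_modO hVG u hu⟩, fun γ hγ => ?_, ?_⟩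
    · show γ • ((u : FN N))⁻¹ = ((u : FN N))⁻¹
      rw [smul_inv'', hufix γ hγ]
    · have hu0 : (u : FN N) ≠ 0 := by
        intro h0
        apply hu
        have : u = 0 := Subtype.ext h0
        rw [this, (modρ hVG).map_zero]
      have hmul : (⟨((u : FN N))⁻¹, inv_mem_modO hVG u hu⟩ : modO hVG) * u = 1 :=
        Subtype.ext (inv_mul_cancel₀ hu0)
      have h1 : modρ hVG ⟨((u : FN N))⁻¹, inv_mem_modO hVG u hu⟩ * modρ hVG u = 1 := by
        rw [← (modρ hVG).map_mul, hmul, (modρ hVG).map_one]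
      have h2 : modρ hVG ⟨((u : FN N))⁻¹, inv_mem_modO hVG u hu⟩ = (modρ hVG u)⁻¹ :=
        eq_inv_of_mul_eq_one_left h1
      rw [h2]
      rfl

/-- the reductions with an inertia-fixed lift form an intermediate field -/
def fixField {ℓ : ℕ} [Fact ℓ.Prime] (hV : V.LiesOverPrime ℓ) (hVG : ModVG N V) :
    IntermediateField (kA V) (LaurentSeries (kA V)) where
  carrier := fixImage hVG
  mul_mem' := fun ha hb => fixImage_mul hVG ha hb
  one_mem' := fixImage_one hVG
  add_mem' := fun ha hb => fixImage_add hVG ha hb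
  zero_mem' := fixImage_zero hVG
  algebraMap_mem' := fun c => fixImage_algebraMap hV hVG c
  inv_mem' := fun _ ha => fixImage_inv hVG ha

/-- the generators `j(q^d)`, `d ∣ N`, of `F_{N,k}` have inertia-fixed lifts -/
theorem generators_mem_fixField {ℓ : ℕ} [Fact ℓ.Prime] (hV : V.LiesOverPrime ℓ)
    (hVG : ModVG N V) :
    divisorExpansionsC (kA V) N ⊆ (fixField hV hVG : Set (LaurentSeries (kA V))) := by
  rintro g ⟨d, hne, hd, rfl⟩
  have := hne
  have hy : coeffMap V.subtype (jqNModC V d) ∈ modularFunctionFieldBar N := by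
    rw [coeffMap_jqNModC]
    exact jqNModC_mem_bar hd
  have hyk : coeffMap (residue V) (jqNModC V d) ∈ modularFunctionFieldFullC (kA V) N := by
    rw [coeffMap_jqNModC]
    exact jqModCd_mem_full (kA V) N hd
  refine ⟨ofSeries hVG (jqNModC V d) hy hyk, fun γ hγ => ?_, ?_⟩
  · obtain ⟨σ, -, rfl⟩ := (mem_inertiaImage V).mp hγ
    apply Subtype.ext
    rw [coe_arithmeticGalois_smul, coe_ofSeries]
    show coeffMap (σ : Qb →+* Qb) (coeffMap V.subtype (jqNModC V d)) =
      coeffMap V.subtype (jqNModC V d)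
    rw [coeffMap_jqNModC, coeffMap_jqNModC]
  · rw [modρ_ofSeries]
    show coeffMap (residue V) (jqNModC V d) = _
    rw [coeffMap_jqNModC]
    rfl

/-- **Inertia-fixed lifts**: every element of `F_{N,k}` is the reduction of an inertia-fixed
element of `O`. -/
theorem exists_fixed_lift {ℓ : ℕ} [Fact ℓ.Prime] (hV : V.LiesOverPrime ℓ) (hVG : ModVG N V)
    (c : FNk V N) :
    ∃ f : modO hVG, modρ hVG f = c ∧
      ∀ γ ∈ inertiaImage V N, γ • ((f : modO hVG) : FN N) = f := by
  have hle : modularFunctionFieldFullC (kA V) N ≤ fixField hV hVG :=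
    IntermediateField.adjoin_le_iff.mpr (generators_mem_fixField hV hVG)
  obtain ⟨u, hufix, hu⟩ := hle c.2
  exact ⟨u, Subtype.ext hu, hufix⟩

/-- inertia fixes the coordinate `j` -/
theorem inertia_smul_x (hVG : ModVG N V) (htr : Transcendental (kA V) (jk N V))
    (γ : SemilinearAut Qb (FN N)) (hγ : γ ∈ inertiaImage V N) :
    γ • (modGj hVG htr).x = (modGj hVG htr).x := by
  obtain ⟨σ, -, rfl⟩ := (mem_inertiaImage V).mp hγ
  apply Subtype.ext
  rw [coe_arithmeticGalois_smul]
  show coeffMap (σ : Qb →+* Qb) (coeffMap V.subtype (jqModC V)) = coeffMap V.subtype (jqModC V)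
  rw [coeffMap_jqModC, coeffMap_jqModC]

/-- **Leaf GR-ORTH** of the `GoodRed` instance of `X₀(N)`: unconditional. -/
theorem orthLeaf (N : ℕ) [NeZero N] {ℓ : ℕ} [Fact ℓ.Prime] (hℓN : ¬ ℓ ∣ N)
    (V : ValuationSubring Qb) (hV : V.LiesOverPrime ℓ) (hVG : ModVG N V) :
    OrthLeaf N V hVG := by
  have htr : Transcendental (kA V) (jk N V) := Fermat.Agent.S37.H579.RimBase.transcendental_jk N V
  obtain ⟨h1, h2, -, h4⟩ := Fermat.Agent.S37.H628.good_H1 N Fact.out hℓN V hV
    (modGj hVG htr) (Fermat.Agent.S37.H579.RimBase.coe_x_modGj _ _)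
    (Fermat.Agent.S37.H579.RimBase.coe_xk_modGj _ _)
  exact orthonormal_of_good (modGj hVG htr) h1 h2 h4
    (Fermat.Agent.Lib.RR.H864.ff1_modularFunctionFieldBar N) (inertiaImage V N)
    (inertia_smul_x hVG htr) (exists_fixed_lift hV hVG)

end Fermat.Agent.A3.H499

end
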